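import Fermat.Agent.LT.T6.H526.LocFld
import Fermat.Agent.S55.L.H715.OuterClosed

/-!
# Row LT -- ASSET (helper526): the NORM INDEX of a quadratic extension of a local field is `2`

OFF-MAIN.  Nothing assumed, no hole.  From the LOCAL CLASS FIELD THEORY OF MAIN
(`Fermat.Agent.S55.L.Closed.normIndexCyclic`, landed with S55) through the adapter `LocFld.lean`.

`k` a local field of the T6 Spec (`IsLocalField k q`; ANY residue characteristic, `2` included),
`X² - t X + n` without root in `k`, `Q(x, y) = x² + t x y + n y²` the norm form of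
`k[X]/(X² - t X + n)` (= `det (x + y γ)` for `γ ∈ GL₂(k)` with trace `t` and determinant `n`):

* `h526_norm_exists_non`: some `a ≠ 0` is NOT a value of `Q`;
* `h526_norm_mul_iff`: for `a, b ≠ 0`: `a b` is a value of `Q` iff (`a` is a value iff `b` is);
  in particular the product of two non-norms is a norm, and `η(a) = ±1` (`+1` on the norms) is
  a character of `k^×` (`h526_norm_of_non_mul_non`).
* `h526_normIndex_units`: the subgroup of the norms has index `2` in `kˣ`.

Consumers: T6.18i `CenQuatC` (the elliptic `γ` near a central non-norm are norms), A2 LOC-FIN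
(`η` of the local Weil representation), T6.15 (norm criterion).
-/

set_option autoImplicit false
set_option linter.unusedSectionVars false
set_option linter.style.haveILetI false

noncomputable section

namespace Fermat.Agent.LT.T6.H526

open Fermat.Agent.LT.T6

variable {k : Type} [Field k]

/-- The quadratic algebra `k[X]/(X² - t X + n)`, `ω² = -n + t ω`. -/
abbrev h526_Q (k : Type) [Field k] (t n : k) : Type := QuadraticAlgebra k (-n) t

theorem h526_fact {t n : k} (hirr : ∀ x : k, x ^ 2 - t * x + n ≠ 0) :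
    Fact (∀ r : k, r ^ 2 ≠ -n + t * r) :=
  ⟨fun r h => hirr r (by rw [h]; ring)⟩

/-- The norm form. -/
def h526_form (t n x y : k) : k := x ^ 2 + t * x * y + n * y ^ 2

theorem h526_norm_mk (t n x y : k) :
    QuadraticAlgebra.norm (⟨x, y⟩ : h526_Q k t n) = h526_form t n x y := by
  rw [QuadraticAlgebra.norm_def]
  simp only [h526_form]
  ring

theorem h526_algebra_norm (t n : k) (z : h526_Q k t n) :
    Algebra.norm k z = QuadraticAlgebra.norm z := by
  rw [Algebra.norm_apply, ← QuadraticAlgebra.det_toLinearMap_eq_norm]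
  congr 1

section Galois

variable {t n : k} [CharZero k] [Fact (∀ r : k, r ^ 2 ≠ -n + t * r)]

/-- The conjugation of `k[X]/(X² - t X + n)`. -/
def h526_conj (t n : k) [Fact (∀ r : k, r ^ 2 ≠ -n + t * r)] :
    h526_Q k t n ≃ₐ[k] h526_Q k t n :=
  AlgEquiv.ofRingEquiv (f := starRingAut) (fun r => by
    show star (algebraMap k (h526_Q k t n) r) = algebraMap k (h526_Q k t n) r
    rw [QuadraticAlgebra.algebraMap_eq, QuadraticAlgebra.star_mk]
    simp)

theorem h526_conj_ne_one : h526_conj (k := k) t n ≠ 1 := by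
  intro h
  have h1 := DFunLike.congr_fun h (⟨0, 1⟩ : h526_Q k t n)
  have h2 : (h526_conj (k := k) t n (⟨0, 1⟩ : h526_Q k t n)).im = -1 := by
    show (star (⟨0, 1⟩ : h526_Q k t n)).im = -1
    rw [QuadraticAlgebra.star_mk]
  rw [h1] at h2
  have h3 : (1 : k) = -1 := h2
  have h4 : (2 : k) = 0 := by linear_combination h3
  exact two_ne_zero h4

theorem h526_card_aut : Nat.card (h526_Q k t n ≃ₐ[k] h526_Q k t n) = 2 := by
  have hle : Nat.card (h526_Q k t n ≃ₐ[k] h526_Q k t n) ≤ 2 := by
    have := AlgEquiv.card_le (F := k) (K := h526_Q k t n)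
    rw [QuadraticAlgebra.finrank_eq_two, ← Nat.card_eq_fintype_card] at this
    exact this
  have hnt : Nontrivial (h526_Q k t n ≃ₐ[k] h526_Q k t n) :=
    ⟨⟨h526_conj t n, 1, h526_conj_ne_one⟩⟩
  have hgt := Finite.one_lt_card_iff_nontrivial.2 hnt
  omega

theorem h526_isGalois : IsGalois k (h526_Q k t n) :=
  IsGalois.of_card_aut_eq_finrank k _ (by rw [h526_card_aut, QuadraticAlgebra.finrank_eq_two])

theorem h526_isCyclic : IsCyclic (h526_Q k t n ≃ₐ[k] h526_Q k t n) :=
  isCyclic_of_prime_card (p := 2) h526_card_aut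

end Galois

section Local

variable [Valued k Γ₀]

/-- The subgroup of `kˣ` of the non-zero values of the norm form. -/
def h526_normSub (t n : k) : Subgroup kˣ :=
  MonoidHom.range (Units.map (Algebra.norm k : h526_Q k t n →* k))

/-- **NORM INDEX.**  The norms of a quadratic extension of a local field form a subgroup of
index `2`. -/
theorem h526_normIndex_units (q : ℕ) (hk : IsLocalField k q) (t n : k)
    (hirr : ∀ x : k, x ^ 2 - t * x + n ≠ 0) : (h526_normSub t n).index = 2 := by
  haveI := hk.char0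
  haveI := h526_fact hirr
  haveI := h526_isLocalFld q hk
  haveI : IsGalois k (h526_Q k t n) := h526_isGalois
  haveI : IsCyclic (h526_Q k t n ≃ₐ[k] h526_Q k t n) := h526_isCyclic
  have := Fermat.Agent.S55.L.Closed.normIndexCyclic k (h526_Q k t n)
  rw [QuadraticAlgebra.finrank_eq_two] at this
  exact this

theorem h526_mem_normSub (t n : k) (hirr : ∀ x : k, x ^ 2 - t * x + n ≠ 0) (u : kˣ) :
    u ∈ h526_normSub t n ↔ ∃ x y : k, h526_form t n x y = (u : k) := by
  haveI := h526_fact hirr
  constructor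
  · rintro ⟨z, hz⟩
    refine ⟨(z : h526_Q k t n).re, (z : h526_Q k t n).im, ?_⟩
    have h1 := congrArg (fun w : kˣ => (w : k)) hz
    simp only [Units.coe_map] at h1
    rw [← h1, h526_algebra_norm, ← h526_norm_mk]
  · rintro ⟨x, y, hxy⟩
    have hz0 : (⟨x, y⟩ : h526_Q k t n) ≠ 0 := by
      intro h0
      have : QuadraticAlgebra.norm (⟨x, y⟩ : h526_Q k t n) = 0 := by rw [h0]; simp
      rw [h526_norm_mk, hxy] at this
      exact u.ne_zero this
    refine ⟨Units.mk0 _ hz0, ?_⟩
    apply Units.ext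
    simp only [Units.coe_map, Units.val_mk0]
    rw [h526_algebra_norm, h526_norm_mk, hxy]

/-- Some non-zero element is not a norm. -/
theorem h526_norm_exists_non (q : ℕ) (hk : IsLocalField k q) (t n : k)
    (hirr : ∀ x : k, x ^ 2 - t * x + n ≠ 0) :
    ∃ a : k, a ≠ 0 ∧ ∀ x y : k, x ^ 2 + t * x * y + n * y ^ 2 ≠ a := by
  have hidx := h526_normIndex_units q hk t n hirr
  have hne : h526_normSub t n ≠ ⊤ := by
    intro h
    rw [← Subgroup.index_eq_one] at h
    omega
  obtain ⟨u, -, hu⟩ := SetLike.exists_of_lt (lt_top_iff_ne_top.2 hne)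
  refine ⟨(u : k), u.ne_zero, fun x y hxy => hu ?_⟩
  exact (h526_mem_normSub t n hirr u).2 ⟨x, y, hxy⟩

/-- For `a, b ≠ 0`: `a b` is a norm iff (`a` is a norm iff `b` is a norm). -/
theorem h526_norm_mul_iff (q : ℕ) (hk : IsLocalField k q) (t n : k)
    (hirr : ∀ x : k, x ^ 2 - t * x + n ≠ 0) (a b : k) (ha : a ≠ 0) (hb : b ≠ 0) :
    (∃ x y : k, x ^ 2 + t * x * y + n * y ^ 2 = a * b) ↔
      ((∃ x y : k, x ^ 2 + t * x * y + n * y ^ 2 = a) ↔
        (∃ x y : k, x ^ 2 + t * x * y + n * y ^ 2 = b)) := by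
  have hidx := h526_normIndex_units q hk t n hirr
  have h := Subgroup.mul_mem_iff_of_index_two hidx (a := Units.mk0 a ha) (b := Units.mk0 b hb)
  rw [h526_mem_normSub t n hirr, h526_mem_normSub t n hirr, h526_mem_normSub t n hirr] at h
  simpa [h526_form] using h

/-- The product of two non-norms is a norm. -/
theorem h526_norm_of_non_mul_non (q : ℕ) (hk : IsLocalField k q) (t n : k)
    (hirr : ∀ x : k, x ^ 2 - t * x + n ≠ 0) (a b : k) (ha : a ≠ 0) (hb : b ≠ 0)
    (hna : ∀ x y : k, x ^ 2 + t * x * y + n * y ^ 2 ≠ a)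
    (hnb : ∀ x y : k, x ^ 2 + t * x * y + n * y ^ 2 ≠ b) :
    ∃ x y : k, x ^ 2 + t * x * y + n * y ^ 2 = a * b := by
  rw [h526_norm_mul_iff q hk t n hirr a b ha hb]
  constructor
  · rintro ⟨x, y, h⟩
    exact absurd h (hna x y)
  · rintro ⟨x, y, h⟩
    exact absurd h (hnb x y)

end Local

end Fermat.Agent.LT.T6.H526
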