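import Fermat.Agent.LT.T6.Spec
import Fermat.Agent.S55.L.Spec

/-!
# Row LT -- ADAPTER (helper526): the local fields of the T6 Spec are local fields of main

OFF-MAIN.  Nothing assumed, no hole.  Imports the T6 Spec and `Fermat/Agent/S55/L/Spec.lean`
(main, Mathlib only).

`h526_isLocalFld : IsLocalField k q → Fermat.Agent.S55.L.IsLocalFld k`: a field with a valuation
in `ℤᵐ⁰` which is complete, of characteristic zero, with a uniformiser and a finite system of
representatives of the residue field, is the fraction field of a complete discrete valuation ring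
with finite residue field (the `ValuationSubring` `{v ≤ 1}`).

So the LOCAL CLASS FIELD THEORY of main (`Fermat/Agent/S55/L/H715/OuterClosed.lean`: norm index,
`H²`, unramified extensions, norms of units) applies to every local field of towers T6 / A2.
-/

set_option autoImplicit false

noncomputable section

namespace Fermat.Agent.LT.T6.H526

open Fermat.Agent.LT.T6

variable {k : Type} [Field k] [Valued k Γ₀]

/-- The ring of integers `{v ≤ 1}`. -/
abbrev h526_O (k : Type) [Field k] [Valued k Γ₀] : ValuationSubring k :=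
  (Valued.v : Valuation k Γ₀).valuationSubring

theorem h526_mem_O (x : k) : x ∈ h526_O k ↔ Valued.v x ≤ 1 :=
  Valuation.mem_valuationSubring_iff _ x

theorem h526_isUnit_iff (a : h526_O k) : IsUnit a ↔ Valued.v (a : k) = 1 := by
  constructor
  · rintro ⟨u, rfl⟩
    have h1 : Valued.v ((u : h526_O k) : k) ≤ 1 := (h526_mem_O _).1 (u : h526_O k).2
    have h2 : Valued.v (((u⁻¹ : (h526_O k)ˣ) : h526_O k) : k) ≤ 1 :=
      (h526_mem_O _).1 ((u⁻¹ : (h526_O k)ˣ) : h526_O k).2
    have h3 : ((u : h526_O k) : k) * (((u⁻¹ : (h526_O k)ˣ) : h526_O k) : k) = 1 := by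
      have e1 : ((u : h526_O k) * ((u⁻¹ : (h526_O k)ˣ) : h526_O k)) = 1 := u.mul_inv
      have e2 := congrArg (Subtype.val) e1
      rw [MulMemClass.coe_mul] at e2
      exact e2
    have h4 : Valued.v ((u : h526_O k) : k) * Valued.v (((u⁻¹ : (h526_O k)ˣ) : h526_O k) : k)
        = 1 := by
      rw [← Valuation.map_mul, h3, Valuation.map_one]
    refine le_antisymm h1 ?_
    by_contra hlt
    rw [not_le] at hlt
    have : Valued.v ((u : h526_O k) : k) * Valued.v (((u⁻¹ : (h526_O k)ˣ) : h526_O k) : k)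
        < 1 := by
      calc _ ≤ Valued.v ((u : h526_O k) : k) * 1 := mul_le_mul' le_rfl h2
        _ = Valued.v ((u : h526_O k) : k) := mul_one _
        _ < 1 := hlt
    rw [h4] at this
    exact lt_irrefl _ this
  · intro h
    have h0 : (a : k) ≠ 0 := by
      intro h0
      rw [h0, Valuation.map_zero] at h
      exact zero_ne_one h
    have hinv : (a : k)⁻¹ ∈ h526_O k := by
      rw [h526_mem_O, map_inv₀, h, inv_one]
    refine isUnit_iff_exists_inv.2 ⟨⟨(a : k)⁻¹, hinv⟩, ?_⟩
    apply Subtype.ext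
    simp [h0]

theorem h526_val_eq_exp_of_ne_zero {x : k} (hx : x ≠ 0) :
    Valued.v x = WithZero.exp (WithZero.log (Valued.v x)) :=
  (WithZero.exp_log (by simpa using hx)).symm

/-- Every non-zero integer is a unit times a power of the uniformiser. -/
theorem h526_exists_pow {ϖ : k} (hϖ : Valued.v ϖ = WithZero.exp (-1 : ℤ)) {x : k}
    (hx : x ≠ 0) (hx1 : Valued.v x ≤ 1) :
    ∃ m : ℕ, Valued.v x = WithZero.exp (-(m : ℤ)) ∧ Valued.v (x / ϖ ^ m) = 1 := by
  have e := h526_val_eq_exp_of_ne_zero hx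
  have hle : WithZero.log (Valued.v x) ≤ 0 := by
    rw [e, ← WithZero.exp_zero, WithZero.exp_le_exp] at hx1
    exact hx1
  refine ⟨(-(WithZero.log (Valued.v x))).toNat, ?_, ?_⟩
  · have : ((-(WithZero.log (Valued.v x))).toNat : ℤ) = -(WithZero.log (Valued.v x)) :=
      Int.toNat_of_nonneg (by omega)
    rw [this, neg_neg]
    exact e
  · have h1 : ((-(WithZero.log (Valued.v x))).toNat : ℤ) = -(WithZero.log (Valued.v x)) :=
      Int.toNat_of_nonneg (by omega)
    have h2 : Valued.v (ϖ ^ (-(WithZero.log (Valued.v x))).toNat)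
        = WithZero.exp (WithZero.log (Valued.v x)) := by
      rw [Valuation.map_pow, hϖ, ← WithZero.exp_nsmul]
      congr 1
      rw [nsmul_eq_mul, h1]
      ring
    rw [map_div₀, h2, ← e]
    exact div_self (by simpa using hx)

theorem h526_lt_one_iff {x : k} : Valued.v x < 1 ↔ Valued.v x ≤ WithZero.exp (-1 : ℤ) := by
  by_cases hx : x = 0
  · subst hx
    simp
  · rw [h526_val_eq_exp_of_ne_zero hx, ← WithZero.exp_zero, WithZero.exp_lt_exp,
      WithZero.exp_le_exp]
    omega

theorem h526_unif_mem {ϖ : k} (hϖ : Valued.v ϖ = WithZero.exp (-1 : ℤ)) : ϖ ∈ h526_O k := by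
  rw [h526_mem_O, hϖ, ← WithZero.exp_zero, WithZero.exp_le_exp]
  omega

theorem h526_unif_ne_zero {ϖ : k} (hϖ : Valued.v ϖ = WithZero.exp (-1 : ℤ)) : ϖ ≠ 0 := by
  intro h
  rw [h, Valuation.map_zero] at hϖ
  exact WithZero.exp_ne_zero hϖ.symm

theorem h526_irreducible {ϖ : k} (hϖ : Valued.v ϖ = WithZero.exp (-1 : ℤ)) :
    Irreducible (⟨ϖ, h526_unif_mem hϖ⟩ : h526_O k) := by
  rw [irreducible_iff]
  constructor
  · rw [h526_isUnit_iff]
    show Valued.v ϖ ≠ 1
    rw [hϖ, ← WithZero.exp_zero]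
    intro h
    have := WithZero.exp_injective h
    omega
  · intro a b hab
    by_contra hcon
    rw [not_or] at hcon
    have ha : Valued.v (a : k) < 1 :=
      lt_of_le_of_ne ((h526_mem_O _).1 a.2) (fun h => hcon.1 ((h526_isUnit_iff a).2 h))
    have hb : Valued.v (b : k) < 1 :=
      lt_of_le_of_ne ((h526_mem_O _).1 b.2) (fun h => hcon.2 ((h526_isUnit_iff b).2 h))
    have hab' : ϖ = (a : k) * (b : k) := by
      have := congrArg Subtype.val hab
      rw [MulMemClass.coe_mul] at this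
      exact this
    have h1 : Valued.v ϖ = Valued.v (a : k) * Valued.v (b : k) := by
      rw [hab', Valuation.map_mul]
    have h2 : Valued.v (a : k) * Valued.v (b : k)
        ≤ WithZero.exp (-1 : ℤ) * WithZero.exp (-1 : ℤ) :=
      mul_le_mul' (h526_lt_one_iff.1 ha) (h526_lt_one_iff.1 hb)
    rw [← h1, hϖ, ← WithZero.exp_add, WithZero.exp_le_exp] at h2
    omega

theorem h526_dvr (q : ℕ) (hk : IsLocalField k q) : IsDiscreteValuationRing (h526_O k) := by
  obtain ⟨ϖ, hϖ⟩ := hk.unif
  apply IsDiscreteValuationRing.ofHasUnitMulPowIrreducibleFactorization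
  refine ⟨⟨ϖ, h526_unif_mem hϖ⟩, h526_irreducible hϖ, ?_⟩
  intro x hx
  have hx0 : (x : k) ≠ 0 := fun h => hx (Subtype.ext h)
  obtain ⟨m, -, hu⟩ := h526_exists_pow hϖ hx0 ((h526_mem_O _).1 x.2)
  have hmem : (x : k) / ϖ ^ m ∈ h526_O k := by rw [h526_mem_O, hu]
  obtain ⟨u, hu'⟩ := (h526_isUnit_iff (⟨(x : k) / ϖ ^ m, hmem⟩ : h526_O k)).2 hu
  refine ⟨m, u, ?_⟩
  apply Subtype.ext
  rw [MulMemClass.coe_mul, hu', SubmonoidClass.coe_pow]
  show ϖ ^ m * ((x : k) / ϖ ^ m) = x
  field_simp [h526_unif_ne_zero hϖ]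

theorem h526_mem_maximalIdeal (a : h526_O k) :
    a ∈ IsLocalRing.maximalIdeal (h526_O k) ↔ Valued.v (a : k) < 1 := by
  rw [IsLocalRing.mem_maximalIdeal, mem_nonunits_iff, h526_isUnit_iff]
  constructor
  · intro h
    exact lt_of_le_of_ne ((h526_mem_O _).1 a.2) h
  · intro h
    exact ne_of_lt h

theorem h526_finite_residue (q : ℕ) (hk : IsLocalField k q) :
    Finite (IsLocalRing.ResidueField (h526_O k)) := by
  obtain ⟨T, -, hT1, -, hT⟩ := hk.residue
  let f : {x // x ∈ T} → IsLocalRing.ResidueField (h526_O k) :=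
    fun x => IsLocalRing.residue _ (⟨x.1, (h526_mem_O _).2 (hT1 x.1 x.2)⟩ : h526_O k)
  have hf : Function.Surjective f := by
    intro y
    obtain ⟨z, rfl⟩ := IsLocalRing.residue_surjective y
    obtain ⟨x, hx, hxz⟩ := hT (z : k) ((h526_mem_O _).1 z.2)
    refine ⟨⟨x, hx⟩, ?_⟩
    show IsLocalRing.residue _ (⟨x, (h526_mem_O _).2 (hT1 x hx)⟩ : h526_O k)
      = IsLocalRing.residue _ z
    symm
    rw [← sub_eq_zero, ← map_sub, IsLocalRing.residue_eq_zero_iff, h526_mem_maximalIdeal]
    exact hxz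
  exact Finite.of_surjective f hf

/-- The powers of the maximal ideal are the balls. -/
theorem h526_mem_pow (q : ℕ) (hk : IsLocalField k q) (n : ℕ) (x : h526_O k) :
    x ∈ IsLocalRing.maximalIdeal (h526_O k) ^ n ↔ Valued.v (x : k) ≤ WithZero.exp (-(n : ℤ)) := by
  obtain ⟨ϖ, hϖ⟩ := hk.unif
  have hdvr := h526_dvr q hk
  have hvpow : Valued.v (ϖ ^ n) = WithZero.exp (-(n : ℤ)) := by
    rw [Valuation.map_pow, hϖ, ← WithZero.exp_nsmul]
    congr 1
    rw [nsmul_eq_mul]
    ring
  rw [(h526_irreducible hϖ).maximalIdeal_eq, Ideal.span_singleton_pow, Ideal.mem_span_singleton]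
  constructor
  · rintro ⟨y, hy⟩
    have e : (x : k) = ϖ ^ n * (y : k) := by
      have := congrArg Subtype.val hy
      rw [MulMemClass.coe_mul, SubmonoidClass.coe_pow] at this
      exact this
    rw [e, Valuation.map_mul, hvpow]
    calc WithZero.exp (-(n : ℤ)) * Valued.v (y : k) ≤ WithZero.exp (-(n : ℤ)) * 1 :=
          mul_le_mul' le_rfl ((h526_mem_O _).1 y.2)
      _ = WithZero.exp (-(n : ℤ)) := mul_one _
  · intro h
    have hmem : (x : k) / ϖ ^ n ∈ h526_O k := by
      rw [h526_mem_O, map_div₀, hvpow]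
      exact div_le_one_of_le₀ h zero_le
    refine ⟨⟨(x : k) / ϖ ^ n, hmem⟩, ?_⟩
    apply Subtype.ext
    rw [MulMemClass.coe_mul, SubmonoidClass.coe_pow]
    show (x : k) = ϖ ^ n * ((x : k) / ϖ ^ n)
    field_simp [h526_unif_ne_zero hϖ]

theorem h526_mem_smul_top (q : ℕ) (hk : IsLocalField k q) (n : ℕ) (x : h526_O k) :
    x ∈ (IsLocalRing.maximalIdeal (h526_O k) ^ n • ⊤ : Submodule (h526_O k) (h526_O k))
      ↔ Valued.v (x : k) ≤ WithZero.exp (-(n : ℤ)) := by
  rw [← h526_mem_pow q hk n x]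
  simp

theorem h526_val_pow {ϖ : k} (hϖ : Valued.v ϖ = WithZero.exp (-1 : ℤ)) (n : ℕ) :
    Valued.v (ϖ ^ n) = WithZero.exp (-(n : ℤ)) := by
  rw [Valuation.map_pow, hϖ, ← WithZero.exp_nsmul]
  congr 1
  rw [nsmul_eq_mul]
  ring

/-- A sequence of integers which is Cauchy for the powers of the maximal ideal converges. -/
theorem h526_exists_limit (q : ℕ) (hk : IsLocalField k q) (f : ℕ → k)
    (hf : ∀ m n : ℕ, m ≤ n → Valued.v (f m - f n) ≤ WithZero.exp (-(m : ℤ))) :
    ∃ L : k, ∀ n : ℕ, Valued.v (f n - L) ≤ WithZero.exp (-(n : ℤ)) := by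
  have hcomp := hk.complete
  obtain ⟨ϖ, hϖ⟩ := hk.unif
  have hC : CauchySeq f := by
    rw [(Valued.hasBasis_uniformity k Γ₀).cauchySeq_iff]
    intro γ _
    have hγ0 := MonoidWithZeroHom.ValueGroup₀.embedding_unit_ne_zero γ
    have hγ := (WithZero.exp_log hγ0).symm
    generalize hj : WithZero.log (MonoidWithZeroHom.ValueGroup₀.embedding
      (γ : MonoidWithZeroHom.ValueGroup₀ (MonoidWithZeroHom.ofClass (Valued.v : Valuation k Γ₀))))
      = j at hγ
    refine ⟨(1 - j).toNat, fun m hm n hn => ?_⟩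
    show Valued.v.restrict (f n - f m) < (γ : _)
    rw [Valuation.restrict_lt_iff_lt_embedding, hγ]
    have hbound : Valued.v (f n - f m) ≤ WithZero.exp (-(((1 - j).toNat : ℕ) : ℤ)) := by
      rcases le_total m n with hmn | hmn
      · have h1 := hf m n hmn
        rw [← Valuation.map_neg, neg_sub] at h1
        refine h1.trans ?_
        rw [WithZero.exp_le_exp]
        omega
      · refine (hf n m hmn).trans ?_
        rw [WithZero.exp_le_exp]
        omega
    refine lt_of_le_of_lt hbound ?_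
    rw [WithZero.exp_lt_exp]
    omega
  obtain ⟨L, hL⟩ := cauchySeq_tendsto_of_complete hC
  refine ⟨L, fun n => ?_⟩
  have hcl : IsClosed {y : k | Valued.v (f n - y) ≤ WithZero.exp (-(n : ℤ))} := by
    have h1 : IsClosed {x : k | Valued.v.restrict x ≤ Valued.v.restrict (ϖ ^ n)} :=
      Valued.isClosed_closedBall k _
    have h2 : {y : k | Valued.v (f n - y) ≤ WithZero.exp (-(n : ℤ))}
        = (fun y : k => f n - y) ⁻¹' {x : k | Valued.v.restrict x ≤ Valued.v.restrict (ϖ ^ n)} := by
      ext y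
      simp only [Set.mem_ofPred_eq, Set.mem_preimage, Valuation.restrict_le_iff, h526_val_pow hϖ]
    rw [h2]
    exact h1.preimage (by fun_prop)
  refine hcl.mem_of_tendsto hL ?_
  filter_upwards [Filter.eventually_ge_atTop n] with N hN
  exact hf n N hN

theorem h526_isAdicComplete (q : ℕ) (hk : IsLocalField k q) :
    IsAdicComplete (IsLocalRing.maximalIdeal (h526_O k)) (h526_O k) := by
  obtain ⟨ϖ, hϖ⟩ := hk.unif
  have hH : IsHausdorff (IsLocalRing.maximalIdeal (h526_O k)) (h526_O k) := by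
    refine ⟨fun x hx => ?_⟩
    by_contra h0
    have hx0 : (x : k) ≠ 0 := fun h => h0 (Subtype.ext h)
    obtain ⟨m, hm, -⟩ := h526_exists_pow hϖ hx0 ((h526_mem_O _).1 x.2)
    have h1 : x ∈ (IsLocalRing.maximalIdeal (h526_O k) ^ (m + 1) • ⊤ :
        Submodule (h526_O k) (h526_O k)) := by
      have := hx (m + 1)
      rwa [SModEq.sub_mem, sub_zero] at this
    rw [h526_mem_smul_top q hk, hm, WithZero.exp_le_exp] at h1
    push_cast at h1
    omega
  have hP : IsPrecomplete (IsLocalRing.maximalIdeal (h526_O k)) (h526_O k) := by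
    refine ⟨fun f hf => ?_⟩
    have hf' : ∀ m n : ℕ, m ≤ n →
        Valued.v (((f m : h526_O k) : k) - ((f n : h526_O k) : k)) ≤ WithZero.exp (-(m : ℤ)) := by
      intro m n hmn
      have := hf hmn
      rw [SModEq.sub_mem, h526_mem_smul_top q hk] at this
      exact this
    obtain ⟨L, hL⟩ := h526_exists_limit q hk (fun n => ((f n : h526_O k) : k)) hf'
    have hLmem : L ∈ h526_O k := by
      rw [h526_mem_O]
      have h0 := hL 0
      have h1 : Valued.v ((f 0 : h526_O k) : k) ≤ 1 := (h526_mem_O _).1 (f 0).2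
      have e : L = ((f 0 : h526_O k) : k) - (((f 0 : h526_O k) : k) - L) := by ring
      rw [e]
      refine Valuation.map_sub_le _ h1 ?_
      simpa using h0
    refine ⟨⟨L, hLmem⟩, fun n => ?_⟩
    rw [SModEq.sub_mem, h526_mem_smul_top q hk]
    exact hL n
  exact { toIsHausdorff := hH, toIsPrecomplete := hP }

/-- **THE ADAPTER.**  A local field of the T6 Spec is a local field of main (layer `S55/L`). -/
theorem h526_isLocalFld (q : ℕ) (hk : IsLocalField k q) : Fermat.Agent.S55.L.IsLocalFld k :=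
  { charZero := hk.char0
    exists_ringOfIntegers :=
      ⟨h526_O k, h526_dvr q hk, h526_isAdicComplete q hk, h526_finite_residue q hk⟩ }

end Fermat.Agent.LT.T6.H526
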